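/-
S26 / block AMPLE / leaf HARTOGS (helper714), part 1: the algebraic Hartogs lemma.

A noetherian integrally closed domain is the intersection of its localisations at the primes of
height one (inside the fraction field).  Mathlib only.  No sorry.

Main statements (`R` noetherian integrally closed domain, `K = Frac R`):
* `exists_height_one_denominators x (hx : x ∉ range)` : there is a prime `p` of height one with
  `{r | r • x ∈ R} ≤ p`;
* `mem_range_of_forall_height_one` : `x ∈ K` lying in `R_p` for all height one primes `p` lies in `R`;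
* `iInf_localization_height_one_eq_bot` : `⨅_{ht p = 1} R_p = R` as subalgebras of `K`.
-/
import Mathlib

set_option autoImplicit false
set_option linter.unusedSectionVars false

namespace Fermat.Agent.S26.H714

open Ideal

variable {R K : Type*} [CommRing R] [IsDomain R] [Field K] [Algebra R K] [IsFractionRing R K]

/-- The ideal of denominators of `y ∈ K`: all `r ∈ R` with `r • y ∈ R`. -/
def denomIdeal (R : Type*) {K : Type*} [CommRing R] [Field K] [Algebra R K] (y : K) : Ideal R where
  carrier := {r | ∃ a : R, r • y = algebraMap R K a}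
  add_mem' := by
    rintro r s ⟨a, ha⟩ ⟨b, hb⟩
    exact ⟨a + b, by rw [add_smul, ha, hb, map_add]⟩
  zero_mem' := ⟨0, by simp⟩
  smul_mem' := by
    rintro c r ⟨a, ha⟩
    exact ⟨c * a, by rw [smul_eq_mul, mul_smul, ha, map_mul, Algebra.smul_def]⟩

theorem mem_denomIdeal {y : K} {r : R} :
    r ∈ denomIdeal R y ↔ ∃ a : R, r • y = algebraMap R K a := Iff.rfl

theorem denomIdeal_eq_top_iff {y : K} :
    denomIdeal R y = ⊤ ↔ y ∈ (algebraMap R K).range := by
  rw [Ideal.eq_top_iff_one, mem_denomIdeal]
  constructor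
  · rintro ⟨a, ha⟩
    exact ⟨a, by rw [← ha, one_smul]⟩
  · rintro ⟨a, ha⟩
    exact ⟨a, by rw [one_smul, ← ha]⟩

theorem denomIdeal_ne_bot (y : K) : denomIdeal R y ≠ ⊥ := by
  obtain ⟨a, s, hs, rfl⟩ := IsFractionRing.div_surjective (A := R) y
  have hs0 : algebraMap R K s ≠ 0 := by
    intro h
    exact nonZeroDivisors.ne_zero hs ((IsFractionRing.injective R K) (by rw [h, map_zero]))
  intro h
  have : s ∈ denomIdeal R (algebraMap R K a / algebraMap R K s) := by
    refine ⟨a, ?_⟩
    rw [Algebra.smul_def]
    field_simp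
  rw [h, Ideal.mem_bot] at this
  exact nonZeroDivisors.ne_zero hs this

theorem denomIdeal_le_smul (y : K) (c : R) : denomIdeal R y ≤ denomIdeal R (c • y) := by
  rintro r ⟨a, ha⟩
  exact ⟨c * a, by rw [smul_comm, ha, map_mul, Algebra.smul_def]⟩

theorem mem_denomIdeal_smul {y : K} {c r : R} :
    r ∈ denomIdeal R (c • y) ↔ r * c ∈ denomIdeal R y := by
  simp only [mem_denomIdeal, mul_smul]

variable [IsNoetherianRing R]

/-- Among the ideals of denominators of the elements `y ∉ R`, those containing the ideal of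
denominators of a fixed `x ∉ R` have a maximal element, which is a prime ideal. -/
theorem exists_prime_denomIdeal (x : K) (hx : x ∉ (algebraMap R K).range) :
    ∃ y : K, y ∉ (algebraMap R K).range ∧ denomIdeal R x ≤ denomIdeal R y ∧
      (denomIdeal R y).IsPrime := by
  obtain ⟨P, ⟨y, hy, hxy, rfl⟩, hmax⟩ := set_has_maximal_iff_noetherian.mpr
    (inferInstance : IsNoetherian R R)
    {P : Ideal R | ∃ y : K, y ∉ (algebraMap R K).range ∧ denomIdeal R x ≤ denomIdeal R y ∧
      P = denomIdeal R y} ⟨_, x, hx, le_rfl, rfl⟩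
  refine ⟨y, hy, hxy, ?_⟩
  refine ⟨fun h => hy (denomIdeal_eq_top_iff.1 h), ?_⟩
  intro a b hab
  rw [or_iff_not_imp_left]
  intro ha
  have hay : a • y ∉ (algebraMap R K).range := by
    rintro ⟨c, hc⟩
    exact ha ⟨c, hc.symm⟩
  have hle : denomIdeal R y ≤ denomIdeal R (a • y) := denomIdeal_le_smul y a
  have hnlt := hmax (denomIdeal R (a • y)) ⟨a • y, hay, hxy.trans hle, rfl⟩
  have heq : denomIdeal R y = denomIdeal R (a • y) := by
    by_contra hne
    exact hnlt (lt_of_le_of_ne hle hne)
  rw [heq, mem_denomIdeal_smul, mul_comm]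
  exact hab

variable [IsIntegrallyClosed R]

/-- A prime ideal of denominators `p = {r | r • y ∈ R}` (`y ∉ R`) of a noetherian integrally
closed domain has height one. -/
theorem height_denomIdeal_eq_one (y : K) (hy : y ∉ (algebraMap R K).range)
    (hp : (denomIdeal R y).IsPrime) : (denomIdeal R y).height = 1 := by
  classical
  set p := denomIdeal R y with hpdef
  -- for `r ∈ p`, the element `r • y` of `R`
  have hex : ∀ r : R, r ∈ p → ∃ a : R, r • y = algebraMap R K a := fun r hr => hr
  -- there is `t ∈ p` with `t • y ∉ p`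
  have hB : ∃ t u : R, t ∈ p ∧ t • y = algebraMap R K u ∧ u ∉ p := by
    by_contra hcon
    have hcon' : ∀ t u : R, t ∈ p → t • y = algebraMap R K u → u ∈ p := by
      intro t u ht htu
      by_contra hu
      exact hcon ⟨t, u, ht, htu, hu⟩
    -- then `y` stabilises the image of `p` in `K`, hence is integral over `R`
    let N : Submodule R K := Submodule.map (Algebra.linearMap R K) p
    have hN : N ≠ ⊥ := by
      intro h
      have hpb : p ≠ ⊥ := denomIdeal_ne_bot y
      obtain ⟨r, hr, hr0⟩ := Submodule.exists_mem_ne_zero_of_ne_bot hpb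
      have : algebraMap R K r ∈ N := ⟨r, hr, rfl⟩
      rw [h, Submodule.mem_bot] at this
      exact hr0 ((IsFractionRing.injective R K) (by rw [this, map_zero]))
    have hNfg : N.FG := (IsNoetherian.noetherian p).map _
    have hstab : ∀ n ∈ N, y • n ∈ N := by
      rintro n ⟨r, hr, rfl⟩
      obtain ⟨a, ha⟩ := hex r hr
      refine ⟨a, hcon' r a hr ha, ?_⟩
      rw [Algebra.linearMap_apply, Algebra.linearMap_apply, ← ha, Algebra.smul_def, smul_eq_mul,
        mul_comm]
    have hint : IsIntegral R y := isIntegral_of_smul_mem_submodule N hN hNfg y hstab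
    obtain ⟨a, ha⟩ := (IsIntegrallyClosed.isIntegral_iff (R := R) (K := K)).1 hint
    exact hy ⟨a, ha⟩
  obtain ⟨t, u, ht, htu, hu⟩ := hB
  -- `u • p ⊆ (t)`
  have hup : ∀ z ∈ p, u * z ∈ Ideal.span {t} := by
    intro z hz
    obtain ⟨a, ha⟩ := hex z hz
    rw [Ideal.mem_span_singleton']
    refine ⟨a, ?_⟩
    apply IsFractionRing.injective R K
    rw [map_mul, map_mul, ← ha, ← htu, Algebra.smul_def, Algebra.smul_def]
    ring
  -- `p` is minimal over `(t)`
  have hmin : p ∈ (Ideal.span {t}).minimalPrimes := by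
    refine ⟨⟨hp, (Ideal.span_singleton_le_iff_mem _).2 ht⟩, ?_⟩
    rintro q ⟨hq, htq⟩ hqp
    intro z hz
    have h1 : u * z ∈ q := htq (hup z hz)
    rcases hq.mem_or_mem h1 with h | h
    · exact absurd (hqp h) hu
    · exact h
  have hle : p.height ≤ 1 :=
    Ideal.height_le_one_of_isPrincipal_of_mem_minimalPrimes (Ideal.span {t}) p hmin
  have hne : p.height ≠ 0 := by
    rw [Ne, Ideal.height_eq_zero_iff_eq_bot]
    exact denomIdeal_ne_bot y
  exact le_antisymm hle (Order.one_le_iff_pos.2 (pos_iff_ne_zero.2 hne))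

/-- **Algebraic Hartogs, existence form.**  If `x ∈ K` does not lie in the noetherian integrally
closed domain `R`, then all denominators of `x` lie in one prime ideal of height one. -/
theorem exists_height_one_denominators (x : K) (hx : x ∉ (algebraMap R K).range) :
    ∃ p : Ideal R, p.IsPrime ∧ p.height = 1 ∧
      ∀ r a : R, r • x = algebraMap R K a → r ∈ p := by
  obtain ⟨y, hy, hxy, hp⟩ := exists_prime_denomIdeal x hx
  exact ⟨denomIdeal R y, hp, height_denomIdeal_eq_one y hy hp, fun r a h => hxy ⟨a, h⟩⟩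

/-- **Algebraic Hartogs.**  An element of the fraction field of a noetherian integrally closed
domain `R` which lies in `R_p` for every prime `p` of height one lies in `R`. -/
theorem mem_range_of_forall_height_one (x : K)
    (h : ∀ p : Ideal R, p.IsPrime → p.height = 1 →
      ∃ a s : R, s ∉ p ∧ x * algebraMap R K s = algebraMap R K a) :
    x ∈ (algebraMap R K).range := by
  by_contra hx
  obtain ⟨p, hp, hp1, hden⟩ := exists_height_one_denominators x hx
  obtain ⟨a, s, hs, hxs⟩ := h p hp hp1
  exact hs (hden s a (by rw [Algebra.smul_def, mul_comm, hxs]))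

/-- **Algebraic Hartogs**, subalgebra form: `⨅_{ht p = 1} R_p = R` inside `K`. -/
theorem iInf_localization_height_one_eq_bot :
    (⨅ p : {p : PrimeSpectrum R // p.asIdeal.height = 1},
      Localization.subalgebra.ofField K p.1.asIdeal.primeCompl
        p.1.asIdeal.primeCompl_le_nonZeroDivisors) = ⊥ := by
  refine le_antisymm ?_ bot_le
  intro x hx
  rw [Algebra.mem_bot]
  have hx' := Algebra.mem_iInf.1 hx
  have := mem_range_of_forall_height_one (R := R) x (fun p hp hp1 => by
    have h : x ∈ {x : K | ∃ (a s : R) (_ : s ∈ p.primeCompl),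
        x = algebraMap R K a * (algebraMap R K s)⁻¹} := hx' ⟨⟨p, hp⟩, hp1⟩
    obtain ⟨a, s, hs, rfl⟩ := h
    have hs0 : algebraMap R K s ≠ 0 := by
      intro h0
      have : s = 0 := (IsFractionRing.injective R K) (by rw [h0, map_zero])
      exact hs (by rw [this]; exact p.zero_mem)
    refine ⟨a, s, hs, ?_⟩
    rw [mul_assoc, inv_mul_cancel₀ hs0, mul_one])
  obtain ⟨a, ha⟩ := this
  exact ⟨a, ha⟩

end Fermat.Agent.S26.H714
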