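/-
S26 / block AMPLE / leaf HARTOGS (helper714), part 2: geometric form on integral schemes.

`X` an integral scheme, `V` an affine open whose ring `Γ(X, V)` is noetherian and integrally
closed, `W ≤ V` a nonempty open containing all points of `V` of codimension one
(`ringKrullDim 𝒪_{X,x} = 1`).  Then
* `res_surjective_of_codim_one_mem` : the restriction `Γ(X, V) → Γ(X, W)` is surjective
  (hence bijective: `res_bijective_of_codim_one_mem`);
* `eq_of_isAffineOpen_of_codim_one_mem` : if moreover `W` is affine, then `W = V`.
Mathlib + `Hartogs.lean` only.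
-/
import Fermat.Agent.S26.H714.Hartogs

set_option autoImplicit false
set_option linter.style.haveILetI false

open AlgebraicGeometry CategoryTheory CategoryTheory.Limits Opposite TopologicalSpace

universe u

namespace Fermat.Agent.S26.H714

variable {X : Scheme.{u}}

/-- On an integral scheme, restriction to a nonempty open subset is injective. -/
theorem res_injective [IsIntegral X] {V W : X.Opens} (hWV : W ≤ V) [Nonempty W] :
    Function.Injective (X.presheaf.map (homOfLE hWV).op) :=
  map_injective_of_isIntegral X (homOfLE hWV)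

/-- **Hartogs for sections.**  Sections over an open subset `W` of a normal noetherian affine
open `V` of an integral scheme extend to `V`, provided that `W` contains all points of
codimension one of `V`. -/
theorem res_surjective_of_codim_one_mem [IsIntegral X] {V W : X.Opens} (hV : IsAffineOpen V)
    (hWV : W ≤ V) [Nonempty W] [IsNoetherianRing Γ(X, V)] [IsIntegrallyClosed Γ(X, V)]
    (h1 : ∀ x ∈ V, ringKrullDim (X.presheaf.stalk x) = 1 → x ∈ W) :
    Function.Surjective (X.presheaf.map (homOfLE hWV).op) := by
  intro s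
  obtain ⟨w⟩ := ‹Nonempty W›
  haveI : Nonempty V := ⟨⟨w.1, hWV w.2⟩⟩
  haveI : Nonempty W := ⟨w⟩
  haveI := functionField_isFractionRing_of_isAffineOpen X V hV
  have hk := mem_range_of_forall_height_one (R := Γ(X, V)) (K := X.functionField)
    (X.germToFunctionField W s) (by
      intro p hp hp1
      let y : PrimeSpectrum Γ(X, V) := ⟨p, hp⟩
      have hxV : hV.fromSpec y ∈ V := by
        have : hV.fromSpec y ∈ Set.range hV.fromSpec := ⟨y, rfl⟩
        rw [hV.range_fromSpec] at this
        exact this
      letI := TopCat.Presheaf.algebra_section_stalk X.presheaf ⟨hV.fromSpec y, hxV⟩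
      haveI hloc : IsLocalization.AtPrime (X.presheaf.stalk (hV.fromSpec y)) y.asIdeal :=
        hV.isLocalization_stalk' y hxV
      have hdim : ringKrullDim (X.presheaf.stalk (hV.fromSpec y)) = 1 := by
        have := IsLocalization.AtPrime.ringKrullDim_eq_height y.asIdeal
          (X.presheaf.stalk (hV.fromSpec y))
        rw [this]
        have hp1' : y.asIdeal.height = 1 := hp1
        rw [hp1']
        rfl
      have hxW : hV.fromSpec y ∈ W := h1 _ hxV hdim
      obtain ⟨⟨a, t⟩, hat⟩ := IsLocalization.surj y.asIdeal.primeCompl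
        (X.presheaf.germ W (hV.fromSpec y) hxW s)
      refine ⟨a, t.1, t.2, ?_⟩
      have h2 := congrArg (algebraMap (X.presheaf.stalk (hV.fromSpec y)) X.functionField) hat
      rw [map_mul, Scheme.algebraMap_germ_eq_germToFunctionField] at h2
      have hst := functionField_isScalarTower X V ⟨hV.fromSpec y, hxV⟩
      rw [← IsScalarTower.algebraMap_apply, ← IsScalarTower.algebraMap_apply] at h2
      exact h2)
  obtain ⟨b, hb⟩ := hk
  refine ⟨b, ?_⟩
  apply X.germToFunctionField_injective W
  rw [← hb]
  have hgen : genericPoint X ∈ W :=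
    ((genericPoint_spec X).mem_open_set_iff W.isOpen).mpr (by simpa using ‹Nonempty W›)
  exact X.presheaf.germ_res_apply (homOfLE hWV) (genericPoint X) hgen b

/-- Bijectivity of the restriction map in the situation of `res_surjective_of_codim_one_mem`. -/
theorem res_bijective_of_codim_one_mem [IsIntegral X] {V W : X.Opens} (hV : IsAffineOpen V)
    (hWV : W ≤ V) [Nonempty W] [IsNoetherianRing Γ(X, V)] [IsIntegrallyClosed Γ(X, V)]
    (h1 : ∀ x ∈ V, ringKrullDim (X.presheaf.stalk x) = 1 → x ∈ W) :
    Function.Bijective (X.presheaf.map (homOfLE hWV).op) :=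
  ⟨res_injective hWV, res_surjective_of_codim_one_mem hV hWV h1⟩

/-- **Hartogs, affine form.**  In a normal noetherian affine open `V` of an integral scheme, a
nonempty AFFINE open subset `W` containing all points of codimension one of `V` is all of `V`. -/
theorem eq_of_isAffineOpen_of_codim_one_mem [IsIntegral X] {V W : X.Opens} (hV : IsAffineOpen V)
    (hW : IsAffineOpen W) (hWV : W ≤ V) [Nonempty W] [IsNoetherianRing Γ(X, V)]
    [IsIntegrallyClosed Γ(X, V)]
    (h1 : ∀ x ∈ V, ringKrullDim (X.presheaf.stalk x) = 1 → x ∈ W) : W = V := by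
  refine le_antisymm hWV ?_
  obtain ⟨hinj, hsurj⟩ := res_bijective_of_codim_one_mem hV hWV h1
  set ρ := (X.presheaf.map (homOfLE hWV).op).hom with hρ
  let s : Set Γ(X, V) := {f | X.basicOpen f ≤ W}
  -- the restrictions of the `f ∈ s` generate the unit ideal of `Γ(X, W)`
  have hs' : Ideal.span (ρ '' s) = ⊤ := by
    rw [← hW.self_le_iSup_basicOpen_iff]
    intro x hx
    obtain ⟨f, hf1, hf2⟩ := hV.exists_basicOpen_le (V := W) ⟨x, hx⟩ (hWV hx)
    have hmem : ρ f ∈ ρ '' s := ⟨f, hf1, rfl⟩
    have hx' : x ∈ X.basicOpen (ρ f) := by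
      have := X.basicOpen_res f (homOfLE hWV).op
      rw [hρ]
      change x ∈ X.basicOpen ((X.presheaf.map (homOfLE hWV).op) f)
      rw [this]
      exact ⟨hx, hf2⟩
    exact Opens.mem_iSup.2 ⟨⟨ρ f, hmem⟩, hx'⟩
  -- hence the `f ∈ s` generate the unit ideal of `Γ(X, V)`
  have hs : Ideal.span s = ⊤ := by
    rw [Ideal.eq_top_iff_one]
    have h1' : (1 : Γ(X, W)) ∈ Ideal.map ρ (Ideal.span s) := by
      rw [Ideal.map_span, hs']
      exact Submodule.mem_top
    obtain ⟨a, ha, ha1⟩ := (Ideal.mem_map_iff_of_surjective ρ hsurj).1 h1'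
    have : a = 1 := hinj (by rw [map_one]; exact ha1)
    rw [← this]
    exact ha
  have hcov := (hV.self_le_iSup_basicOpen_iff (s := s)).2 hs
  refine hcov.trans ?_
  rw [iSup_le_iff]
  rintro ⟨f, hf⟩
  exact hf

/-- The local ring of `Spec A` at a point `y` has Krull dimension the height of `y`. -/
theorem ringKrullDim_stalk_Spec (A : CommRingCat.{u}) (y : Spec A) :
    ringKrullDim ((Spec A).presheaf.stalk y) = (y.asIdeal.height : WithBot ℕ∞) := by
  letI : Algebra A ((Spec A).presheaf.stalk y) := StructureSheaf.stalkAlgebra (R := A) y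
  haveI : IsLocalization.AtPrime ((Spec A).presheaf.stalk y) y.asIdeal :=
    StructureSheaf.IsLocalization.to_stalk (R := A) y
  exact IsLocalization.AtPrime.ringKrullDim_eq_height y.asIdeal _

/-- **Hartogs, codimension of the complement of an affine open** (core form).  Let `X` be an
integral, locally noetherian scheme, `U ⊆ X` a nonempty open subset whose preimage in
`Spec 𝒪_{X,z}` is affine, and `z ∉ U` a point with integrally closed local ring which is maximal
(under generisation) among the points outside `U`.  Then `𝒪_{X,z}` has Krull dimension one. -/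
theorem ringKrullDim_stalk_eq_one_of_isAffineOpen_preimage [IsIntegral X] [IsLocallyNoetherian X]
    {U : X.Opens} [Nonempty U] {z : X} (hnorm : IsIntegrallyClosed (X.presheaf.stalk z))
    (hW : IsAffineOpen ((X.fromSpecStalk z) ⁻¹ᵁ U)) (hz : z ∉ U)
    (hmax : ∀ y : X, y ⤳ z → y ∉ U → y = z) :
    ringKrullDim (X.presheaf.stalk z) = 1 := by
  by_contra hdim
  let A : CommRingCat.{u} := X.presheaf.stalk z
  let f : Spec A ⟶ X := X.fromSpecStalk z
  let W : (Spec A).Opens := f ⁻¹ᵁ U
  -- `W` is nonempty: it contains the preimage of the generic point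
  have hgenU : genericPoint X ∈ U :=
    ((genericPoint_spec X).mem_open_set_iff U.isOpen).mpr (by simpa using ‹Nonempty U›)
  have hgenz : genericPoint X ⤳ z := (genericPoint_spec X).specializes trivial
  have hrange : genericPoint X ∈ Set.range f := by
    rw [Scheme.range_fromSpecStalk]
    exact hgenz
  obtain ⟨y₀, hy₀⟩ := hrange
  haveI : Nonempty W := ⟨⟨y₀, by
    change f y₀ ∈ U
    rw [hy₀]
    exact hgenU⟩⟩
  -- the ring of global sections of `Spec A` is `A`
  let e : Γ(Spec A, ⊤) ≃+* A := (Scheme.ΓSpecIso A).commRingCatIsoToRingEquiv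
  haveI : IsNoetherianRing A := inferInstanceAs (IsNoetherianRing (X.presheaf.stalk z))
  haveI : IsNoetherianRing Γ(Spec A, ⊤) := isNoetherianRing_of_ringEquiv A e.symm
  haveI : IsIntegrallyClosed A := hnorm
  haveI : IsIntegrallyClosed Γ(Spec A, ⊤) := IsIntegrallyClosed.of_equiv e.symm
  -- all points of codimension one of `Spec A` lie in `W`
  have h1 : ∀ y ∈ (⊤ : (Spec A).Opens), ringKrullDim ((Spec A).presheaf.stalk y) = 1 → y ∈ W := by
    intro y _ hy
    by_contra hyW
    have hfy : f y ⤳ z := by
      have : f y ∈ Set.range f := ⟨y, rfl⟩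
      rw [Scheme.range_fromSpecStalk] at this
      exact this
    have hfyz : f y = z := hmax (f y) hfy hyW
    have hyc : y = IsLocalRing.closedPoint A := by
      apply f.isEmbedding.injective
      rw [hfyz]
      exact Scheme.fromSpecStalk_closedPoint.symm
    apply hdim
    rw [ringKrullDim_stalk_Spec, hyc] at hy
    change ringKrullDim A = 1
    rw [← IsLocalRing.maximalIdeal_height_eq_ringKrullDim]
    exact hy
  have hWtop : W = ⊤ :=
    eq_of_isAffineOpen_of_codim_one_mem (isAffineOpen_top (Spec A)) hW le_top h1
  have hc : IsLocalRing.closedPoint A ∈ W := by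
    rw [hWtop]
    trivial
  apply hz
  have : f (IsLocalRing.closedPoint A) ∈ U := hc
  rwa [Scheme.fromSpecStalk_closedPoint] at this

/-- **Hartogs, codimension of the complement of an affine open**, relative form: `X` separated
over an affine scheme `S`. -/
theorem ringKrullDim_stalk_eq_one_of_isAffineOpen_over [IsIntegral X] [IsLocallyNoetherian X]
    {S : Scheme.{u}} (g : X ⟶ S) [IsSeparated g] [IsAffine S]
    {U : X.Opens} (hU : IsAffineOpen U) [Nonempty U] {z : X}
    (hnorm : IsIntegrallyClosed (X.presheaf.stalk z)) (hz : z ∉ U)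
    (hmax : ∀ y : X, y ⤳ z → y ∉ U → y = z) :
    ringKrullDim (X.presheaf.stalk z) = 1 := by
  haveI : IsAffineHom (X.fromSpecStalk z) := by
    haveI : IsAffineHom (X.fromSpecStalk z ≫ g) := inferInstance
    exact IsAffineHom.of_comp (X.fromSpecStalk z) g
  exact ringKrullDim_stalk_eq_one_of_isAffineOpen_preimage hnorm
    (hU.preimage (X.fromSpecStalk z)) hz hmax

/-- **Hartogs, codimension of the complement of an affine open.**  Let `X` be an integral,
locally noetherian, separated scheme, `U ⊆ X` a nonempty affine open subset and `z ∉ U` a point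
with integrally closed local ring which is maximal (under generisation) among the points outside
`U`, i.e. the generic point of an irreducible component of `X ∖ U`.  Then `𝒪_{X,z}` has Krull
dimension one: every irreducible component of `X ∖ U` has codimension one. -/
theorem ringKrullDim_stalk_eq_one_of_isAffineOpen [IsIntegral X] [IsLocallyNoetherian X]
    [X.IsSeparated] {U : X.Opens} (hU : IsAffineOpen U) [Nonempty U] {z : X}
    (hnorm : IsIntegrallyClosed (X.presheaf.stalk z)) (hz : z ∉ U)
    (hmax : ∀ y : X, y ⤳ z → y ∉ U → y = z) :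
    ringKrullDim (X.presheaf.stalk z) = 1 := by
  haveI : IsAffineHom (X.fromSpecStalk z) := by
    haveI : IsAffineHom (X.fromSpecStalk z ≫ terminal.from X) := inferInstance
    exact IsAffineHom.of_comp (X.fromSpecStalk z) (terminal.from X)
  exact ringKrullDim_stalk_eq_one_of_isAffineOpen_preimage hnorm
    (hU.preimage (X.fromSpecStalk z)) hz hmax

/-- The same statement in terms of the codimension `Order.coheight z` of the point `z`. -/
theorem coheight_eq_one_of_isAffineOpen [IsIntegral X] [IsLocallyNoetherian X]
    [X.IsSeparated] {U : X.Opens} (hU : IsAffineOpen U) [Nonempty U] {z : X}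
    (hnorm : IsIntegrallyClosed (X.presheaf.stalk z)) (hz : z ∉ U)
    (hmax : ∀ y : X, y ⤳ z → y ∉ U → y = z) :
    Order.coheight z = 1 := by
  have h := ringKrullDim_stalk_eq_one_of_isAffineOpen hU hnorm hz hmax
  rw [ringKrullDim_stalk_eq_coheight] at h
  exact_mod_cast h

/-- The relative form in terms of the codimension `Order.coheight z`. -/
theorem coheight_eq_one_of_isAffineOpen_over [IsIntegral X] [IsLocallyNoetherian X]
    {S : Scheme.{u}} (g : X ⟶ S) [IsSeparated g] [IsAffine S]
    {U : X.Opens} (hU : IsAffineOpen U) [Nonempty U] {z : X}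
    (hnorm : IsIntegrallyClosed (X.presheaf.stalk z)) (hz : z ∉ U)
    (hmax : ∀ y : X, y ⤳ z → y ∉ U → y = z) :
    Order.coheight z = 1 := by
  have h := ringKrullDim_stalk_eq_one_of_isAffineOpen_over g hU hnorm hz hmax
  rw [ringKrullDim_stalk_eq_coheight] at h
  exact_mod_cast h

/-- Normality passes from an affine open to the local rings of its points. -/
theorem isIntegrallyClosed_stalk_of_isAffineOpen [IsIntegral X] {V : X.Opens}
    (hV : IsAffineOpen V) [IsIntegrallyClosed Γ(X, V)] (x : X) (hx : x ∈ V) :
    IsIntegrallyClosed (X.presheaf.stalk x) := by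
  haveI : Nonempty V := ⟨⟨x, hx⟩⟩
  letI := TopCat.Presheaf.algebra_section_stalk X.presheaf ⟨x, hx⟩
  haveI := hV.isLocalization_stalk ⟨x, hx⟩
  exact isIntegrallyClosed_of_isLocalization (X.presheaf.stalk x)
    (hV.primeIdealOf ⟨x, hx⟩).asIdeal.primeCompl
    (hV.primeIdealOf ⟨x, hx⟩).asIdeal.primeCompl_le_nonZeroDivisors

end Fermat.Agent.S26.H714
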